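import Mathlib.RingTheory.Smooth.StandardSmoothCotangent
import Mathlib.RingTheory.DedekindDomain.Dvr
import Mathlib.RingTheory.DiscreteValuationRing.TFAE
import Mathlib.RingTheory.Jacobson.Ring
import Mathlib.RingTheory.NoetherNormalization
import Mathlib.RingTheory.Ideal.GoingUp
import Mathlib.FieldTheory.IsAlgClosed.Basic
import Fermat.Agent.FF.Structure

/-!
# Smooth curve algebras over an algebraically closed field
-/

set_option autoImplicit false

noncomputable section

open Polynomial KaehlerDifferential IntermediateField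

namespace Fermat.Agent.Jac

universe u

variable {k A : Type u} [Field k] [IsAlgClosed k] [CommRing A] [Algebra k A]
  [Algebra.FiniteType k A]

theorem quotient_bijective (m : Ideal A) [m.IsMaximal] :
    Function.Bijective (algebraMap k (A ⧸ m)) := by
  let _ : Field (A ⧸ m) := Ideal.Quotient.field m
  have : Algebra.FiniteType k (A ⧸ m) :=
    Algebra.FiniteType.of_surjective (Ideal.Quotient.mkₐ k m) Ideal.Quotient.mk_surjective
  have : Module.Finite k (A ⧸ m) := finite_of_finite_type_of_isJacobsonRing k (A ⧸ m)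
  exact IsAlgClosed.algebraMap_bijective_of_isIntegral

variable (k)
variable [Algebra.IsStandardSmoothOfRelativeDimension 1 k A]
include k

/-- The maximal ideal is principal modulo its square. -/
theorem exists_generator_mod_sq [Nontrivial A] (m : Ideal A) [m.IsMaximal] :
    ∃ a ∈ m, m ≤ Ideal.span {a} ⊔ m ^ 2 := by
  have : Algebra.IsStandardSmooth k A :=
    Algebra.IsStandardSmoothOfRelativeDimension.isStandardSmooth 1
  obtain ⟨ω, hω⟩ : ∃ ω : Ω[A⁄k], Submodule.span A {ω} = ⊤ := by
    obtain ⟨e⟩ : Nonempty (A ≃ₗ[A] Ω[A⁄k]) := by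
      refine nonempty_linearEquiv_of_rank_eq ?_
      rw [Algebra.IsStandardSmoothOfRelativeDimension.rank_kaehlerDifferential (R := k) (S := A) 1,
        Module.rank_self]
      simp
    refine ⟨e 1, eq_top_iff.mpr fun x _ => Submodule.mem_span_singleton.mpr ⟨e.symm x, ?_⟩⟩
    rw [← map_smul, smul_eq_mul, mul_one, LinearEquiv.apply_symm_apply]
  let e := RingEquiv.ofBijective (algebraMap k (A ⧸ m)) (quotient_bijective m)
  let ε : A →ₐ[k] k :=
    { (e.symm : (A ⧸ m) →+* k).comp (Ideal.Quotient.mk m) with
      commutes' := fun r => e.symm_apply_apply r }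
  have hsub : ∀ a, a - algebraMap k A (ε a) ∈ m := fun a => by
    rw [← Ideal.Quotient.eq]
    exact (e.apply_symm_apply (Ideal.Quotient.mk m a)).symm
  have hε : ∀ a ∈ m, ε a = 0 := fun a ha => by
    show e.symm (Ideal.Quotient.mk m a) = 0
    rw [Ideal.Quotient.eq_zero_iff_mem.mpr ha, map_zero]
  let f : A →ₗ[k] m.Cotangent :=
    { toFun := fun a => m.toCotangent ⟨_, hsub a⟩
      map_add' := fun a b => by
        rw [← map_add]; congr 1; ext; simp only [map_add, Submodule.coe_add]; ring
      map_smul' := fun r a => by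
        rw [RingHom.id_apply, ← LinearMap.map_smul_of_tower]
        congr 1
        ext
        simp only [map_mul, SetLike.val_smul_of_tower, Algebra.smul_def]
        simp [mul_sub] }
  let δ : Derivation k A m.Cotangent :=
    Derivation.mk' f fun a b => by
      show m.toCotangent ⟨_, hsub _⟩ = a • m.toCotangent ⟨_, hsub _⟩ + b • m.toCotangent ⟨_, hsub _⟩
      rw [← map_smul, ← map_smul, ← map_add, Ideal.toCotangent_eq]
      have h2 := Ideal.mul_mem_mul (hsub a) (hsub b)
      rw [← pow_two] at h2
      convert neg_mem h2 using 1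
      simp only [Submodule.coe_add, SetLike.val_smul, smul_eq_mul, map_mul]
      ring
  obtain ⟨⟨a₀, ha₀⟩, ha₀'⟩ := m.toCotangent_surjective (δ.liftKaehlerDifferential ω)
  refine ⟨a₀, ha₀, fun x hx => ?_⟩
  obtain ⟨r, hr⟩ := Submodule.mem_span_singleton.mp
    (hω ▸ Submodule.mem_top : KaehlerDifferential.D k A x ∈ Submodule.span A {ω})
  have h1 : δ x = r • δ.liftKaehlerDifferential ω := by
    rw [← δ.liftKaehlerDifferential_comp_D x, ← hr, map_smul]
  rw [← ha₀', ← map_smul] at h1
  have h2 : (x - algebraMap k A (ε x)) - r * a₀ ∈ m ^ 2 := Ideal.toCotangent_eq _ |>.mp h1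
  rw [hε x hx, map_zero, sub_zero] at h2
  refine Submodule.mem_sup.mpr ⟨r * a₀, Ideal.mem_span_singleton'.mpr ⟨r, rfl⟩, _, h2, ?_⟩
  ring

variable [IsDomain A]

theorem not_isField : ¬ IsField A := fun h => by
  have : (⊥ : Ideal A).IsMaximal := by
    let _ := h.toField
    exact Ideal.bot_isMaximal
  have hsurj : Function.Surjective (algebraMap k A) := fun a => by
    obtain ⟨r, hr⟩ := (quotient_bijective (k := k) (⊥ : Ideal A)).2 (Ideal.Quotient.mk _ a)
    refine ⟨r, ?_⟩
    rw [← sub_eq_zero, ← Ideal.mem_bot, ← Ideal.Quotient.eq]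
    exact hr
  have := KaehlerDifferential.subsingleton_of_surjective k A hsurj
  have h1 := Algebra.IsStandardSmoothOfRelativeDimension.rank_kaehlerDifferential (R := k) (S := A) 1
  rw [rank_subsingleton' A] at h1
  simp at h1

theorem isDiscreteValuationRing_localization (m : Ideal A) [m.IsMaximal] :
    IsDiscreteValuationRing (Localization.AtPrime m) := by
  have : IsNoetherianRing A := Algebra.FiniteType.isNoetherianRing k A
  have hm0 : m ≠ ⊥ := fun h => not_isField k (A := A)
    (Ring.isField_iff_maximal_bot.mpr (h ▸ ‹m.IsMaximal›))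
  set R := Localization.AtPrime m
  obtain ⟨a, ha, hle⟩ := exists_generator_mod_sq k m
  have hmax : (IsLocalRing.maximalIdeal R) = m.map (algebraMap A R) :=
    (IsLocalization.AtPrime.map_eq_maximalIdeal m R).symm
  have hpr : (IsLocalRing.maximalIdeal R).IsPrincipal := by
    refine ⟨⟨algebraMap A R a, le_antisymm ?_ ?_⟩⟩
    · refine Submodule.le_of_le_smul_of_le_jacobson_bot (I := IsLocalRing.maximalIdeal R)
        (IsNoetherian.noetherian _) (IsLocalRing.maximalIdeal_le_jacobson _) ?_
      rw [hmax]
      refine (Ideal.map_mono hle).trans ?_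
      rw [Ideal.map_sup, Ideal.map_span, Set.image_singleton, Ideal.map_pow, pow_two]
      exact le_rfl
    · rw [Submodule.span_singleton_le_iff_mem, hmax]
      exact Ideal.mem_map_of_mem _ ha
  have hnf : ¬ IsField R := fun h => by
    rw [IsLocalRing.isField_iff_maximalIdeal_eq] at h
    rw [hmax, Ideal.map_eq_bot_iff_of_injective
      (IsLocalization.injective R m.primeCompl_le_nonZeroDivisors)] at h
    exact hm0 h
  exact ((IsDiscreteValuationRing.TFAE R hnf).out 0 4).mpr hpr

theorem isMaximal_of_ne_bot (P : Ideal A) [P.IsPrime] (hP : P ≠ ⊥) : P.IsMaximal := by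
  obtain ⟨m, hm, hPm⟩ := P.exists_le_maximal (Ideal.IsPrime.ne_top ‹_›)
  have := isDiscreteValuationRing_localization k m
  have hd : Disjoint (m.primeCompl : Set A) (P : Set A) :=
    Set.disjoint_left.mpr fun x hx hxP => hx (hPm hxP)
  have hinj := IsLocalization.injective (Localization.AtPrime m) m.primeCompl_le_nonZeroDivisors
  have h0 : P.map (algebraMap A (Localization.AtPrime m)) ≠ ⊥ := fun h =>
    hP ((Ideal.map_eq_bot_iff_of_injective hinj).mp h)
  have hp := IsLocalization.isPrime_of_isPrime_disjoint m.primeCompl (Localization.AtPrime m) P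
    ‹_› hd
  have h1 := IsLocalRing.eq_maximalIdeal (hp.isMaximal h0)
  have h2 := IsLocalization.under_map_of_isPrime_disjoint m.primeCompl (Localization.AtPrime m)
    ‹P.IsPrime› hd
  rw [h1] at h2
  rwa [← h2, Localization.AtPrime.under_maximalIdeal]

variable (A) in
theorem isFunctionField (F : Type u) [Field F] [Algebra A F] [IsFractionRing A F] [Algebra k F]
    [IsScalarTower k A F] : FF.IsFunctionField k F := by
  obtain ⟨s, g, hginj, hgfin⟩ := exists_finite_inj_algHom_of_fg k A
  let _ : Algebra (MvPolynomial (Fin s) k) A := g.toRingHom.toAlgebra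
  have : IsScalarTower k (MvPolynomial (Fin s) k) A :=
    IsScalarTower.of_algebraMap_eq fun r => (g.commutes r).symm
  have hfinA : Module.Finite (MvPolynomial (Fin s) k) A := hgfin
  have hinjA : Function.Injective (algebraMap (MvPolynomial (Fin s) k) A) := hginj
  have : FaithfulSMul (MvPolynomial (Fin s) k) A :=
    (faithfulSMul_iff_algebraMap_injective _ _).mpr hinjA
  have hdim : ∀ P : Ideal (MvPolynomial (Fin s) k), P.IsPrime → P ≠ ⊥ → P.IsMaximal := by
    intro P hP hP0
    obtain ⟨Q, -, hQ, hQP⟩ := Ideal.exists_ideal_over_prime_of_isIntegral (S := A) P (⊥ : Ideal A)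
      (by
        show RingHom.ker (algebraMap (MvPolynomial (Fin s) k) A) ≤ P
        rw [(RingHom.injective_iff_ker_eq_bot _).mp hinjA]
        exact bot_le)
    have hQ0 : Q ≠ ⊥ := fun h => hP0 (by
      rw [← hQP, h]
      exact (RingHom.injective_iff_ker_eq_bot _).mp hinjA)
    have := isMaximal_of_ne_bot k Q hQ0
    rw [← hQP]
    exact Ideal.isMaximal_comap_of_isIntegral_of_isMaximal Q
  have hs : s = 1 := by
    rcases Nat.lt_trichotomy s 1 with h | h | h
    · exfalso
      obtain rfl : s = 0 := by omega
      refine not_isField k (A := A) (isField_of_isIntegral_of_isField' (R := MvPolynomial (Fin 0) k) ?_)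
      exact MulEquiv.isField (Field.toIsField k) (MvPolynomial.isEmptyRingEquiv k (Fin 0)).toMulEquiv
    · exact h
    · exfalso
      let i0 : Fin s := ⟨0, by omega⟩
      let i1 : Fin s := ⟨1, by omega⟩
      let φ : MvPolynomial (Fin s) k →ₐ[k] k[X] :=
        MvPolynomial.aeval (fun i => if i = i1 then X else 0)
      have hφ : Function.Surjective φ := fun p => ⟨aeval (MvPolynomial.X i1) p, by
        rw [← aeval_algHom_apply]; simp [φ]⟩
      have hker0 : RingHom.ker φ ≠ ⊥ := fun h => by
        have h2 : MvPolynomial.X i0 ∈ RingHom.ker φ := by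
          rw [RingHom.mem_ker]; simp [φ, i0, i1]
        rw [h, Ideal.mem_bot] at h2
        exact MvPolynomial.X_ne_zero i0 h2
      have hm := hdim _ (RingHom.ker_isPrime _) hker0
      exact Polynomial.not_isField k (MulEquiv.isField
        ((Ideal.Quotient.maximal_ideal_iff_isField_quotient _).mp hm)
        (RingHom.quotientKerEquivOfSurjective hφ).symm.toMulEquiv)
  subst hs
  let x : A := algebraMap (MvPolynomial (Fin 1) k) A (MvPolynomial.X 0)
  let xF : F := algebraMap A F x
  have hxt : Transcendental k xF := by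
    refine (transcendental_algebraMap_iff (IsFractionRing.injective A F)).mpr ?_
    exact (transcendental_algebraMap_iff hinjA).mpr (MvPolynomial.transcendental_X k 0)
  have hmem : ∀ p : MvPolynomial (Fin 1) k,
      algebraMap A F (algebraMap (MvPolynomial (Fin 1) k) A p) ∈ k⟮xF⟯ := fun p => by
    induction p using MvPolynomial.induction_on with
    | C a =>
      rw [← MvPolynomial.algebraMap_eq, ← IsScalarTower.algebraMap_apply k (MvPolynomial (Fin 1) k) A,
        ← IsScalarTower.algebraMap_apply k A F]
      exact IntermediateField.algebraMap_mem _ a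
    | add p q hp hq => rw [map_add, map_add]; exact add_mem hp hq
    | mul_X p i hp =>
      rw [map_mul, map_mul, Subsingleton.elim i 0]
      exact mul_mem hp (mem_adjoin_simple_self k xF)
  have hint : ∀ a : A, IsAlgebraic k⟮xF⟯ (algebraMap A F a) := fun a => by
    obtain ⟨p, hp, hpa⟩ := Algebra.IsIntegral.isIntegral (R := MvPolynomial (Fin 1) k) a
    refine IsIntegral.isAlgebraic ⟨p.map (((algebraMap A F).comp
      (algebraMap (MvPolynomial (Fin 1) k) A)).codRestrict k⟮xF⟯ hmem), hp.map _, ?_⟩
    rw [Polynomial.eval₂_map]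
    have h := congrArg (algebraMap A F) hpa
    rw [map_zero, Polynomial.hom_eval₂] at h
    exact h
  have : Algebra.IsAlgebraic k⟮xF⟯ F := ⟨fun z => by
    obtain ⟨a, b, -, rfl⟩ := IsFractionRing.div_surjective A z
    rw [div_eq_mul_inv]
    exact ((hint a).isIntegral.mul (hint b).isIntegral.inv).isAlgebraic⟩
  have : Algebra.EssFiniteType A F := Algebra.EssFiniteType.of_isLocalization F (nonZeroDivisors A)
  have : Algebra.EssFiniteType k F := Algebra.EssFiniteType.comp k A F
  have : Algebra.EssFiniteType k⟮xF⟯ F := Algebra.EssFiniteType.of_comp k k⟮xF⟯ F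
  have : FiniteDimensional k⟮xF⟯ F := Algebra.finite_of_essFiniteType_of_isAlgebraic
  exact FF.isFunctionField_of_finite hxt

end Fermat.Agent.Jac
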