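import Fermat.Agent.FF.RiemannRoch

/-!
# Functions with prescribed orders on a function field
-/

set_option autoImplicit false

noncomputable section

open scoped Classical

open AlgebraicCurve

namespace Fermat.Agent.Jac

variable {K F : Type*} [Field K] [Field F] [Algebra K F] [FF.IsFunctionField K F] [IsAlgClosed K]

theorem exists_exact : ∃ N : ℤ, ∀ D : Divisor K F, N ≤ Divisor.degree D → ∀ v : Place K F,
    ∃ f : F, f ≠ 0 ∧ (∀ w : Place K F, -D w ≤ w.ord f) ∧ v.ord f = -D v := by
  obtain ⟨c, hc⟩ := FF.exists_ell_eq (K := K) (F := F)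
  refine ⟨c + 1, fun D hD v => ?_⟩
  have hdeg : Divisor.degree (D - Finsupp.single v 1) = Divisor.degree D - 1 := by
    rw [map_sub, Divisor.degree_single, FF.deg_eq_one]; simp
  have h1 := hc D (by omega)
  have h2 := hc (D - Finsupp.single v 1) (by omega)
  have hne : ¬ riemannRochSpace D ≤ riemannRochSpace (D - Finsupp.single v 1) := fun hle => by
    have := Submodule.finrank_mono hle
    unfold FF.ell at h1 h2
    omega
  obtain ⟨f, hf, hf'⟩ := SetLike.not_le_iff_exists.mp hne
  rw [FF.mem_riemannRochSpace'] at hf hf'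
  have hf0 : f ≠ 0 := fun h => hf' fun w => h ▸ zero_mem _
  refine ⟨f, hf0, fun w => FF.le_ord_of_mem_ordGe w hf0 (hf w), ?_⟩
  have h3 := FF.le_ord_of_mem_ordGe v hf0 (hf v)
  by_contra h4
  refine hf' fun w => FF.mem_ordGe_of_le w ?_
  have h5 := FF.le_ord_of_mem_ordGe w hf0 (hf w)
  rcases eq_or_ne w v with rfl | hw
  · simp only [Finsupp.sub_apply, Finsupp.single_eq_same]; omega
  · simp only [Finsupp.sub_apply, Finsupp.single_eq_of_ne hw, sub_zero]; exact h5

/-- A function regular away from `q`, vanishing on `T`, of prescribed order at `v`. -/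
theorem exists_ord_eq_and (q v : Place K F) (hvq : v ≠ q) (T : Finset (Place K F)) (hq : q ∉ T)
    (n : ℕ) :
    ∃ f : F, f ≠ 0 ∧ (∀ w, w ≠ q → 0 ≤ w.ord f) ∧ (∀ w ∈ T, w ≠ v → 1 ≤ w.ord f) ∧
      v.ord f = n := by
  obtain ⟨N, hN⟩ := exists_exact (K := K) (F := F)
  set E : Divisor K F := ∑ w ∈ T.erase v, Finsupp.single w 1 with hE
  set m : ℤ := N + n + Divisor.degree E
  set D : Divisor K F := Finsupp.single q m - Finsupp.single v (n : ℤ) - E with hD
  have hdeg : Divisor.degree D = N := by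
    simp only [hD, map_sub, Divisor.degree_single, FF.deg_eq_one, m]
    simp only [Nat.cast_one, mul_one]
    omega
  obtain ⟨f, hf0, hf, hfv⟩ := hN D hdeg.ge v
  have hEa : ∀ w, E w = if w ∈ T.erase v then 1 else 0 := fun w => by
    simp [hE, Finsupp.finsetSum_apply, Finsupp.single_apply]
  refine ⟨f, hf0, fun w hw => ?_, fun w hwT hwv => ?_, ?_⟩
  · have := hf w
    simp only [hD, Finsupp.sub_apply, Finsupp.single_apply, hEa, Ne.symm hw, if_false] at this
    split_ifs at this <;> omega
  · have := hf w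
    have hwq : q ≠ w := fun h => hq (h ▸ hwT)
    simp only [hD, Finsupp.sub_apply, Finsupp.single_apply, hEa, hwq, Ne.symm hwv, if_false,
      Finset.mem_erase, ne_eq, hwv, not_false_eq_true, hwT, and_self, if_true] at this
    omega
  · rw [hfv]
    simp [hD, hEa, Ne.symm hvq]

/-- A function whose only pole is `q`. -/
theorem exists_pole (q : Place K F) :
    ∃ f : F, f ≠ 0 ∧ (∀ w, w ≠ q → 0 ≤ w.ord f) ∧ q.ord f < 0 := by
  obtain ⟨N, hN⟩ := exists_exact (K := K) (F := F)
  obtain ⟨f, hf0, hf, hfq⟩ := hN (Finsupp.single q (max N 1))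
    (by rw [Divisor.degree_single, FF.deg_eq_one]; simp) q
  refine ⟨f, hf0, fun w hw => ?_, ?_⟩
  · have := hf w
    rwa [Finsupp.single_eq_of_ne hw, neg_zero] at this
  · rw [hfq, Finsupp.single_eq_same]
    omega

/-- The value of a regular function at a place. -/
theorem exists_sub_algebraMap_mem (v : Place K F) {g : F} (hg : g ∈ FF.ordGe v 0) :
    ∃ a : K, g - algebraMap K F a ∈ FF.ordGe v 1 := by
  have h1 : (1 : F) ∈ FF.ordGe v 0 := FF.mem_ordGe_of_le v (by simp)
  have hone : FF.residueLin v ⟨1, h1⟩ ≠ 0 := fun h => by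
    rw [FF.residueLin_eq_zero_iff] at h
    have := FF.le_ord_of_mem_ordGe v one_ne_zero h
    simp at this
  obtain ⟨a, ha⟩ := (finrank_eq_one_iff_of_nonzero' _ hone).mp (FF.deg_eq_one v)
    (FF.residueLin v ⟨g, hg⟩)
  refine ⟨a, ?_⟩
  rw [← map_smul, eq_comm, ← sub_eq_zero, ← map_sub, FF.residueLin_eq_zero_iff] at ha
  simpa [Algebra.smul_def] using ha

end Fermat.Agent.Jac
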