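import Mathlib.AlgebraicGeometry.FunctionField
import Mathlib.AlgebraicGeometry.ValuativeCriterion
import Mathlib.AlgebraicGeometry.Morphisms.Smooth
import Mathlib.AlgebraicGeometry.AlgClosed.Basic
import Fermat.Agent.Jac.Geometry.LocalAlg

/-!
# Closed points and places of a smooth proper integral curve
-/

set_option autoImplicit false

noncomputable section

open CategoryTheory AlgebraicGeometry AlgebraicCurve TopologicalSpace

namespace Fermat.Agent.Jac

universe u

variable {k : Type u} [Field k] {C : Scheme.{u}} (c : C ⟶ Spec (CommRingCat.of k))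

/-- Constants as sections over an open. -/
def constHom (U : C.Opens) : k →+* Γ(C, U) :=
  ((Scheme.ΓSpecIso (CommRingCat.of k)).inv ≫ c.appLE ⊤ U le_top).hom

/-- Sections over an open as an algebra over the base. -/
@[reducible] def sectionsAlgebra (U : C.Opens) : Algebra k Γ(C, U) := (constHom c U).toAlgebra

/-- The function field as an algebra over the base. -/
@[reducible] def fieldAlgebra [IrreducibleSpace C] : Algebra k C.functionField :=
  ((C.presheaf.germ ⊤ (genericPoint C) trivial).hom.comp (constHom c ⊤)).toAlgebra

theorem map_constHom {U V : C.Opens} (h : V ≤ U) (r : k) :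
    C.presheaf.map (homOfLE h).op (constHom c U r) = constHom c V r := by
  have h0 : c.appLE ⊤ U le_top ≫ C.presheaf.map (homOfLE h).op = c.appLE ⊤ V le_top :=
    c.appLE_map _ _
  simp only [constHom, ← h0]
  rfl

theorem germToFunctionField_constHom [IrreducibleSpace C] (U : C.Opens) [Nonempty U] (r : k) :
    letI := fieldAlgebra c
    C.germToFunctionField U (constHom c U r) = algebraMap k C.functionField r := by
  letI := fieldAlgebra c
  rw [← map_constHom c (le_top : U ≤ ⊤) r]
  exact C.presheaf.germ_res_apply (homOfLE _) _ _ _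

variable [IsAlgClosed k] [IsIntegral C] [SmoothOfRelativeDimension 1 c]
include c

set_option linter.unusedSectionVars false
set_option linter.style.haveILetI false

theorem locallyOfFiniteType : LocallyOfFiniteType c := by
  have := SmoothOfRelativeDimension.smooth (n := 1) (f := c)
  infer_instance

theorem jacobsonSpace : JacobsonSpace C :=
  have := locallyOfFiniteType c
  LocallyOfFiniteType.jacobsonSpace c

/-- Every point lies in an affine open with a smooth curve algebra of sections. -/
theorem exists_chart (x : C) : ∃ V : C.Opens, IsAffineOpen V ∧ x ∈ V ∧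
    letI := sectionsAlgebra c V
    Algebra.FiniteType k Γ(C, V) ∧ Algebra.IsStandardSmoothOfRelativeDimension 1 k Γ(C, V) := by
  obtain ⟨U, hU, V, hV, hxV, e, hf⟩ :=
    SmoothOfRelativeDimension.exists_isStandardSmoothOfRelativeDimension (n := 1) (f := c) x
  obtain rfl : U = ⊤ := eq_top_iff.mpr fun y _ => by
    rw [Subsingleton.elim y (c.base x)]; exact e hxV
  refine ⟨V, hV, hxV, ?_⟩
  letI := sectionsAlgebra c V
  have h := RingHom.isStandardSmoothOfRelativeDimension_respectsIso.2 _
    (Scheme.ΓSpecIso (CommRingCat.of k)).symm.commRingCatIsoToRingEquiv hf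
  have h' : (constHom c V).IsStandardSmoothOfRelativeDimension 1 := h
  have h2 : Algebra.IsStandardSmoothOfRelativeDimension 1 k Γ(C, V) := h'
  have : Algebra.IsStandardSmooth k Γ(C, V) :=
    Algebra.IsStandardSmoothOfRelativeDimension.isStandardSmooth 1
  exact ⟨inferInstance, h2⟩

theorem isDiscreteValuationRing_stalk {x : C} (hx : IsClosed {x}) :
    IsDiscreteValuationRing (C.presheaf.stalk x) := by
  obtain ⟨V, hV, hxV, hft, hss⟩ := exists_chart c x
  letI := sectionsAlgebra c V
  let _ := TopCat.Presheaf.algebra_section_stalk C.presheaf (⟨x, hxV⟩ : V)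
  have : Nonempty V := ⟨⟨x, hxV⟩⟩
  have := hV.primeIdealOf_isMaximal_of_isClosed ⟨x, hxV⟩ hx
  have := isDiscreteValuationRing_localization k (hV.primeIdealOf ⟨x, hxV⟩).asIdeal
  have := hV.isLocalization_stalk ⟨x, hxV⟩
  exact IsDiscreteValuationRing.RingEquivClass.isDiscreteValuationRing
    (IsLocalization.algEquiv (hV.primeIdealOf ⟨x, hxV⟩).asIdeal.primeCompl
      (Localization.AtPrime (hV.primeIdealOf ⟨x, hxV⟩).asIdeal) (C.presheaf.stalk x)).toRingEquiv

theorem isClosed_or_eq_genericPoint (x : C) : IsClosed {x} ∨ x = genericPoint C := by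
  obtain ⟨V, hV, hxV, hft, hss⟩ := exists_chart c x
  letI := sectionsAlgebra c V
  have : Nonempty V := ⟨⟨x, hxV⟩⟩
  have := jacobsonSpace c
  by_cases h0 : (hV.primeIdealOf ⟨x, hxV⟩).asIdeal = ⊥
  · right
    have hη : genericPoint C ∈ V :=
      (genericPoint_spec C).mem_open_set_iff V.2 |>.mpr ⟨x, trivial, hxV⟩
    have h1 := hV.primeIdealOf_genericPoint
    have h2 : hV.primeIdealOf ⟨x, hxV⟩ = hV.primeIdealOf ⟨genericPoint C, hη⟩ := by
      rw [h1, genericPoint_eq_bot_of_affine]
      exact PrimeSpectrum.ext h0
    exact ((hV.fromSpec_primeIdealOf ⟨x, hxV⟩).symm.trans (congrArg hV.fromSpec h2)).trans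
      (hV.fromSpec_primeIdealOf _)
  · left
    have hm := isMaximal_of_ne_bot k _ h0
    apply isClosed_singleton_of_isLocallyClosed_singleton
    rw [show ({x} : Set C) = hV.fromSpec '' {hV.primeIdealOf ⟨x, hxV⟩} from
      ((Set.image_singleton).trans (congrArg _ (hV.fromSpec_primeIdealOf ⟨x, hxV⟩))).symm]
    exact ((hV.primeIdealOf ⟨x, hxV⟩).isClosed_singleton_iff_isMaximal.mpr hm).isLocallyClosed.image
      hV.fromSpec.isOpenEmbedding.isInducing hV.fromSpec.isOpenEmbedding.isOpen_range.isLocallyClosed

theorem isFunctionField_functionField :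
    letI := fieldAlgebra c
    FF.IsFunctionField k C.functionField := by
  letI := fieldAlgebra c
  obtain ⟨V, hV, hxV, hft, hss⟩ := exists_chart c (genericPoint C)
  letI := sectionsAlgebra c V
  have : Nonempty V := ⟨⟨_, hxV⟩⟩
  have : IsScalarTower k Γ(C, V) C.functionField :=
    IsScalarTower.of_algebraMap_eq fun r => (germToFunctionField_constHom c V r).symm
  have := functionField_isFractionRing_of_isAffineOpen C V hV
  exact isFunctionField k Γ(C, V) C.functionField

theorem not_isClosed_genericPoint : ¬ IsClosed {genericPoint C} := fun h => by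
  obtain ⟨V, hV, hxV, hft, hss⟩ := exists_chart c (genericPoint C)
  letI := sectionsAlgebra c V
  have : Nonempty V := ⟨⟨_, hxV⟩⟩
  have hm := hV.primeIdealOf_isMaximal_of_isClosed ⟨_, hxV⟩ h
  rw [hV.primeIdealOf_genericPoint, genericPoint_eq_bot_of_affine] at hm
  exact not_isField k (A := Γ(C, V)) (Ring.isField_iff_maximal_bot.mpr hm)

theorem fromSpecStalk_genericPoint_comp :
    letI := fieldAlgebra c
    C.fromSpecStalk (genericPoint C) ≫ c =
      Spec.map (CommRingCat.ofHom (algebraMap k C.functionField)) := by
  letI := fieldAlgebra c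
  refine ext_to_Spec ?_
  show _ ≫ (C.fromSpecStalk (genericPoint C) ≫ c).appTop =
    _ ≫ (Spec.map (CommRingCat.ofHom (algebraMap k C.functionField))).appTop
  rw [Scheme.Hom.comp_appTop, Scheme.fromSpecStalk_appTop,
    ← cancel_mono (Scheme.ΓSpecIso (C.presheaf.stalk (genericPoint C))).hom]
  simp [Scheme.ΓSpecIso_naturality]
  rw [show c.appTop = c.appLE ⊤ ⊤ le_top from c.app_eq_appLE]
  rfl

variable [IsProper c]

/-- The valuation ring of a closed point inside the function field. -/
def stalkSubring {x : C} (hx : IsClosed {x}) : ValuationSubring C.functionField :=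
  ValuationSubring.ofSubring (algebraMap (C.presheaf.stalk x) C.functionField).range fun f => by
    have := isDiscreteValuationRing_stalk c hx
    rcases ValuationRing.isInteger_or_isInteger (C.presheaf.stalk x) f with ⟨a, ha⟩ | ⟨a, ha⟩
    · exact Or.inl ⟨a, ha⟩
    · exact Or.inr ⟨a, ha⟩

theorem mem_stalkSubring {x : C} (hx : IsClosed {x}) {f : C.functionField} :
    f ∈ stalkSubring c hx ↔ ∃ a, algebraMap (C.presheaf.stalk x) C.functionField a = f := Iff.rfl

/-- The stalk as a valuation ring. -/
def stalkEquiv {x : C} (hx : IsClosed {x}) : C.presheaf.stalk x ≃+* stalkSubring c hx :=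
  RingEquiv.ofBijective (algebraMap (C.presheaf.stalk x) C.functionField).rangeRestrict
    ⟨fun a b h => IsFractionRing.injective (C.presheaf.stalk x) C.functionField
      (congrArg Subtype.val h), RingHom.rangeRestrict_surjective _⟩

/-- The place of a closed point. -/
def pointPlace (x : C) (hx : IsClosed {x}) :
    letI := fieldAlgebra c
    Place k C.functionField :=
  letI := fieldAlgebra c
  have := isDiscreteValuationRing_stalk c hx
  { toValuationSubring := stalkSubring c hx
    algebraMap_mem' := fun r => ⟨C.presheaf.germ ⊤ x trivial (constHom c ⊤ r), by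
      rw [RingHom.algebraMap_toAlgebra]
      exact C.presheaf.germ_stalkSpecializes_apply _ _ _⟩
    ne_top' := fun h => IsDiscreteValuationRing.not_isField (C.presheaf.stalk x) <| by
      refine ⟨⟨0, 1, zero_ne_one⟩, mul_comm, fun {a} ha => ?_⟩
      have h0 : algebraMap (C.presheaf.stalk x) C.functionField a ≠ 0 :=
        fun h0 => ha (IsFractionRing.injective (C.presheaf.stalk x) C.functionField
          (h0.trans (map_zero _).symm))
      obtain ⟨b, hb⟩ : (algebraMap _ C.functionField a)⁻¹ ∈ stalkSubring c hx :=
        h ▸ ValuationSubring.mem_top _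
      refine ⟨b, IsFractionRing.injective (C.presheaf.stalk x) C.functionField ?_⟩
      rw [map_mul, hb, mul_inv_cancel₀ h0, map_one]
    isPrincipalIdealRing' := IsPrincipalIdealRing.of_surjective (stalkEquiv c hx).toRingHom
      (stalkEquiv c hx).surjective }

theorem exists_pointPlace :
    letI := fieldAlgebra c
    ∀ v : Place k C.functionField, ∃ (x : C) (hx : IsClosed {x}), pointPlace c x hx = v := by
  letI := fieldAlgebra c
  intro v
  have hfac : (v.toValuationSubring.subtype).comp (algebraMap k v.toValuationSubring) =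
      algebraMap k C.functionField := RingHom.ext fun r => Place.coe_algebraMap v r
  let S : ValuativeCommSq c :=
    { R := v.toValuationSubring
      K := C.functionField
      i₁ := C.fromSpecStalk (genericPoint C)
      i₂ := Spec.map (CommRingCat.ofHom (algebraMap k v.toValuationSubring))
      commSq := ⟨by
        rw [fromSpecStalk_genericPoint_comp c, ← Spec.map_comp, ← CommRingCat.ofHom_comp, ← hfac]
        rfl⟩ }
  have hex : ValuativeCriterion.Existence c :=
    ((IsProper.eq_valuativeCriterion ▸ ‹IsProper c› :
      (ValuativeCriterion ⊓ @QuasiCompact ⊓ @QuasiSeparated ⊓ @LocallyOfFiniteType :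
        MorphismProperty Scheme) c).1.1.1).existence
  obtain ⟨⟨l, hl₁, hl₂⟩⟩ := (hex S).exists_lift
  let x := l (IsLocalRing.closedPoint v.toValuationSubring)
  let φ := Scheme.stalkClosedPointTo l
  have hcomm : φ ≫ CommRingCat.ofHom v.toValuationSubring.subtype =
      C.presheaf.stalkSpecializes (genericPoint_specializes x) := by
    rw [← Spec.map_injective.eq_iff, ← cancel_mono (C.fromSpecStalk x), Spec.map_comp,
      Category.assoc, Scheme.Spec_stalkClosedPointTo_fromSpecStalk,
      Scheme.SpecMap_stalkSpecializes_fromSpecStalk]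
    exact hl₁
  have hmem : ∀ a, algebraMap (C.presheaf.stalk x) C.functionField a ∈ v.toValuationSubring :=
    fun a => by
      rw [RingHom.algebraMap_toAlgebra, ← hcomm]
      exact (φ a).2
  rcases isClosed_or_eq_genericPoint c x with hx | hx
  · exact ⟨x, hx, FF.eq_of_le (by rintro _ ⟨a, rfl⟩; exact hmem a)⟩
  · exfalso
    refine v.ne_top' (SetLike.ext fun f => ⟨fun _ => ValuationSubring.mem_top f, fun _ => ?_⟩)
    have key : ∀ y : C, y = genericPoint C → (∀ a, algebraMap (C.presheaf.stalk y) C.functionField a
        ∈ v.toValuationSubring) → f ∈ v.toValuationSubring := by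
      rintro y rfl h
      have := h f
      rwa [RingHom.algebraMap_toAlgebra, TopCat.Presheaf.stalkSpecializes_refl] at this
    exact key x hx hmem

theorem pointPlace_injective :
    ∀ x y : C, ∀ (hx : IsClosed {x}) (hy : IsClosed {y}),
      pointPlace c x hx = pointPlace c y hy → x = y := by
  letI := fieldAlgebra c
  intro x y hx hy h
  set v := pointPlace c x hx
  have hlift : ∀ z : C, ∀ hz : IsClosed {z}, pointPlace c z hz = v →
      ∃ l : Spec (CommRingCat.of v.toValuationSubring) ⟶ C,
        Spec.map (CommRingCat.ofHom v.toValuationSubring.subtype) ≫ l =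
          C.fromSpecStalk (genericPoint C) ∧
        l ≫ c = Spec.map (CommRingCat.ofHom (algebraMap k v.toValuationSubring)) ∧
        l (IsLocalRing.closedPoint v.toValuationSubring) = z := by
    intro z hz hzv
    let e : C.presheaf.stalk z →+* v.toValuationSubring :=
      (algebraMap (C.presheaf.stalk z) C.functionField).codRestrict v.toValuationSubring.toSubring
        fun a => by rw [← hzv]; exact ⟨a, rfl⟩
    have hbij : Function.Bijective e := ⟨fun a b hab =>
      IsFractionRing.injective (C.presheaf.stalk z) C.functionField (congrArg Subtype.val hab),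
      fun ⟨f, hf⟩ => by
        obtain ⟨a, ha⟩ : f ∈ (pointPlace c z hz).toValuationSubring := hzv ▸ hf
        exact ⟨a, Subtype.ext ha⟩⟩
    refine ⟨Spec.map (CommRingCat.ofHom e) ≫ C.fromSpecStalk z, ?_, ?_, ?_⟩
    · rw [← Spec.map_comp_assoc,
        show CommRingCat.ofHom e ≫ CommRingCat.ofHom v.toValuationSubring.subtype =
          C.presheaf.stalkSpecializes (genericPoint_specializes z) from rfl,
        Scheme.SpecMap_stalkSpecializes_fromSpecStalk]
    · have hmono : ∀ (P Q : Spec (CommRingCat.of v.toValuationSubring) ⟶ Spec (CommRingCat.of k)),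
          Spec.map (CommRingCat.ofHom v.toValuationSubring.subtype) ≫ P =
            Spec.map (CommRingCat.ofHom v.toValuationSubring.subtype) ≫ Q → P = Q := by
        intro P Q hPQ
        rw [← Spec.map_preimage P, ← Spec.map_preimage Q, ← Spec.map_comp, ← Spec.map_comp,
          Spec.map_injective.eq_iff] at hPQ
        rw [← Spec.map_preimage P, ← Spec.map_preimage Q]
        congr 1
        ext r
        exact congr($hPQ r)
      apply hmono
      rw [← Category.assoc, ← Category.assoc, ← Spec.map_comp,
        show CommRingCat.ofHom e ≫ CommRingCat.ofHom v.toValuationSubring.subtype =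
          C.presheaf.stalkSpecializes (genericPoint_specializes z) from rfl,
        Scheme.SpecMap_stalkSpecializes_fromSpecStalk, fromSpecStalk_genericPoint_comp c,
        ← Spec.map_comp]
      congr 1
    · show C.fromSpecStalk z
        (Spec.map (CommRingCat.ofHom e) (IsLocalRing.closedPoint v.toValuationSubring)) = z
      have : IsLocalHom e :=
        isLocalHom_of_leftInverse (RingEquiv.ofBijective e hbij).symm.toRingHom
          (RingEquiv.ofBijective e hbij).symm_apply_apply
      rw [show Spec.map (CommRingCat.ofHom e) (IsLocalRing.closedPoint v.toValuationSubring) =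
          IsLocalRing.closedPoint (C.presheaf.stalk z) from IsLocalRing.comap_closedPoint e]
      exact Scheme.fromSpecStalk_closedPoint
  obtain ⟨l, hl₁, hl₂, hl₃⟩ := hlift x hx rfl
  obtain ⟨l', hl'₁, hl'₂, hl'₃⟩ := hlift y hy h.symm
  let S : ValuativeCommSq c :=
    { R := v.toValuationSubring
      K := C.functionField
      i₁ := C.fromSpecStalk (genericPoint C)
      i₂ := Spec.map (CommRingCat.ofHom (algebraMap k v.toValuationSubring))
      commSq := ⟨by
        rw [← hl₂, ← Category.assoc]
        exact congrArg (· ≫ c) hl₁.symm⟩ }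
  have := IsSeparated.valuativeCriterion c S
  have h1 := Subsingleton.elim (α := S.commSq.LiftStruct) ⟨l, hl₁, hl₂⟩ ⟨l', hl'₁, hl'₂⟩
  rw [← hl₃, ← hl'₃, show l = l' from congrArg CommSq.LiftStruct.l h1]

end Fermat.Agent.Jac
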