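import Mathlib.AlgebraicGeometry.Morphisms.Affine
import Fermat.Agent.Jac.Geometry.Places
import Fermat.Agent.Jac.Geometry.Functions

/-!
# Sections and affine opens of a smooth proper integral curve
-/

set_option autoImplicit false

noncomputable section

open scoped Classical

open CategoryTheory AlgebraicGeometry AlgebraicCurve TopologicalSpace

namespace Fermat.Agent.Jac

universe u

variable {k : Type u} [Field k] [IsAlgClosed k] {C : Scheme.{u}}
  (c : C ⟶ Spec (CommRingCat.of k)) [IsIntegral C] [SmoothOfRelativeDimension 1 c] [IsProper c]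

set_option linter.unusedSectionVars false
set_option linter.style.haveILetI false
include c

/-- The point of a place. -/
def placePoint (v : letI := fieldAlgebra c; Place k C.functionField) : C :=
  (exists_pointPlace c v).choose

theorem isClosed_placePoint (v : letI := fieldAlgebra c; Place k C.functionField) :
    IsClosed {placePoint c v} :=
  (exists_pointPlace c v).choose_spec.choose

theorem pointPlace_placePoint (v : letI := fieldAlgebra c; Place k C.functionField) :
    pointPlace c (placePoint c v) (isClosed_placePoint c v) = v :=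
  (exists_pointPlace c v).choose_spec.choose_spec

theorem placePoint_pointPlace (x : C) (hx : IsClosed {x}) :
    placePoint c (pointPlace c x hx) = x :=
  pointPlace_injective c _ _ _ hx (pointPlace_placePoint c _)

theorem le_of_closedPoints {U W : C.Opens} (h : ∀ x, IsClosed {x} → x ∈ U → x ∈ W) : U ≤ W := by
  have := jacobsonSpace c
  intro x hx
  by_contra hxW
  obtain ⟨y, ⟨hyU, hyW⟩, hy⟩ := nonempty_inter_closedPoints
    (Z := (U : Set C) ∩ (W : Set C)ᶜ) ⟨x, hx, hxW⟩
    (U.2.isLocallyClosed.inter W.2.isClosed_compl.isLocallyClosed)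
  exact hyW (h y hy hyU)

theorem algebraMap_germ_eq (U : C.Opens) [Nonempty U] {x : C} (hxU : x ∈ U) (s : Γ(C, U)) :
    algebraMap (C.presheaf.stalk x) C.functionField (C.presheaf.germ U x hxU s) =
      C.germToFunctionField U s := by
  rw [RingHom.algebraMap_toAlgebra]
  exact C.presheaf.germ_stalkSpecializes_apply _ _ _

theorem germToFunctionField_mem (U : C.Opens) [Nonempty U] (s : Γ(C, U)) {x : C}
    (hx : IsClosed {x}) (hxU : x ∈ U) :
    letI := fieldAlgebra c
    C.germToFunctionField U s ∈ (pointPlace c x hx).toValuationSubring :=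
  ⟨_, algebraMap_germ_eq c U hxU s⟩

theorem ord_germToFunctionField_nonneg (U : C.Opens) [Nonempty U] (s : Γ(C, U)) {x : C}
    (hx : IsClosed {x}) (hxU : x ∈ U) :
    letI := fieldAlgebra c
    0 ≤ (pointPlace c x hx).ord (C.germToFunctionField U s) :=
  letI := fieldAlgebra c
  FF.ord_nonneg _ (germToFunctionField_mem c U s hx hxU)

theorem mem_basicOpen_iff_ord (U : C.Opens) [Nonempty U] (s : Γ(C, U)) {x : C}
    (hx : IsClosed {x}) (hxU : x ∈ U) :
    letI := fieldAlgebra c
    x ∈ C.basicOpen s ↔ C.germToFunctionField U s ≠ 0 ∧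
      (pointPlace c x hx).ord (C.germToFunctionField U s) = 0 := by
  letI := fieldAlgebra c
  rw [C.mem_basicOpen s x hxU, ← algebraMap_germ_eq c U hxU s]
  have hinj := IsFractionRing.injective (C.presheaf.stalk x) C.functionField
  set g := C.presheaf.germ U x hxU s
  constructor
  · intro hu
    obtain ⟨b, hb⟩ := hu.exists_right_inv
    have h1 := congrArg (algebraMap (C.presheaf.stalk x) C.functionField) hb
    rw [map_mul, map_one] at h1
    refine ⟨left_ne_zero_of_mul_eq_one h1, ?_⟩
    have ha : 0 ≤ (pointPlace c x hx).ord (algebraMap _ C.functionField g) :=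
      FF.ord_nonneg _ ⟨g, rfl⟩
    have hb : 0 ≤ (pointPlace c x hx).ord (algebraMap _ C.functionField b) :=
      FF.ord_nonneg _ ⟨b, rfl⟩
    have := (pointPlace c x hx).ord_mul (left_ne_zero_of_mul_eq_one h1)
      (right_ne_zero_of_mul_eq_one h1)
    rw [h1, Place.ord_one] at this
    omega
  · rintro ⟨h0, h1⟩
    obtain ⟨b, hb⟩ : (algebraMap (C.presheaf.stalk x) C.functionField g)⁻¹ ∈
        (pointPlace c x hx).toValuationSubring :=
      (FF.mem_iff_ord _ (inv_ne_zero h0)).mpr (by rw [Place.ord_inv, h1]; simp)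
    refine IsUnit.of_mul_eq_one b (hinj ?_)
    rw [map_mul, hb, mul_inv_cancel₀ h0, map_one]

theorem exists_closed_mem (U : C.Opens) [hU : Nonempty U] : ∃ x ∈ U, IsClosed {x} := by
  have := jacobsonSpace c
  obtain ⟨⟨x, hx⟩⟩ := hU
  obtain ⟨y, hyU, hy⟩ := nonempty_inter_closedPoints (Z := (U : Set C)) ⟨x, hx⟩ U.2.isLocallyClosed
  exact ⟨y, hyU, hy⟩

theorem exists_section (U : C.Opens) [Nonempty U] (f : C.functionField)
    (hf : letI := fieldAlgebra c
      ∀ x, ∀ hx : IsClosed {x}, x ∈ U → f ∈ (pointPlace c x hx).toValuationSubring) :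
    ∃ s : Γ(C, U), C.germToFunctionField U s = f := by
  let ι := {x : C // IsClosed {x} ∧ x ∈ U}
  have key : ∀ i : ι, ∃ (W : C.Opens) (_ : i.1 ∈ W) (_ : W ≤ U) (s : Γ(C, W)),
      ∀ h : genericPoint C ∈ W, C.presheaf.germ W _ h s = f := fun ⟨x, hx, hxU⟩ => by
    obtain ⟨a, ha⟩ := hf x hx hxU
    obtain ⟨W, hxW, s, rfl⟩ := C.presheaf.exists_germ_eq a
    refine ⟨W ⊓ U, ⟨hxW, hxU⟩, inf_le_right, C.presheaf.map (homOfLE inf_le_left).op s,
      fun h => ?_⟩
    rw [C.presheaf.germ_res_apply, ← ha, RingHom.algebraMap_toAlgebra]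
    exact (C.presheaf.germ_stalkSpecializes_apply hxW (genericPoint_specializes x) s).symm
  choose W hxW hWU s hs using key
  have hcov : U ≤ iSup W := le_of_closedPoints c fun x hx hxU =>
    Opens.mem_iSup.mpr ⟨⟨x, hx, hxU⟩, hxW ⟨x, hx, hxU⟩⟩
  have hcompat : TopCat.Presheaf.IsCompatible C.presheaf W s := fun i j => by
    have hη : genericPoint C ∈ W i ⊓ W j :=
      ⟨((genericPoint_spec C).mem_open_set_iff (W i).2).mpr ⟨i.1, trivial, hxW i⟩,
        ((genericPoint_spec C).mem_open_set_iff (W j).2).mpr ⟨j.1, trivial, hxW j⟩⟩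
    apply germ_injective_of_isIntegral C (genericPoint C) hη
    dsimp only [TopologicalSpace.Opens.infLELeft, TopologicalSpace.Opens.infLERight]
    rw [C.presheaf.germ_res_apply, C.presheaf.germ_res_apply, hs, hs]
  obtain ⟨t, ht, -⟩ := C.sheaf.existsUnique_gluing' W U (fun i => homOfLE (hWU i)) hcov s hcompat
  obtain ⟨x, hxU, hx⟩ := exists_closed_mem c U
  refine ⟨t, ?_⟩
  have hη : genericPoint C ∈ W ⟨x, hx, hxU⟩ :=
    ((genericPoint_spec C).mem_open_set_iff (W _).2).mpr ⟨x, trivial, hxW ⟨x, hx, hxU⟩⟩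
  rw [← hs ⟨x, hx, hxU⟩ hη, ← ht ⟨x, hx, hxU⟩]
  exact (C.presheaf.germ_res_apply (homOfLE (hWU ⟨x, hx, hxU⟩)) _ hη t).symm

theorem noetherianSpace : NoetherianSpace C := by
  have := locallyOfFiniteType c
  have : IsLocallyNoetherian C := LocallyOfFiniteType.isLocallyNoetherian c
  have : CompactSpace C := QuasiCompact.compactSpace_of_compactSpace c
  have : AlgebraicGeometry.IsNoetherian C := {}
  infer_instance

theorem finite_compl (U : C.Opens) [hU : Nonempty U] : ((U : Set C)ᶜ).Finite := by
  have := noetherianSpace c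
  obtain ⟨S, hS, hSc, hSi, hUS⟩ :=
    NoetherianSpace.exists_finite_set_isClosed_irreducible (α := C) U.2.isClosed_compl
  rw [show ((U : Set C))ᶜ = ⋃₀ S from hUS]
  refine hS.sUnion fun t ht => ?_
  have htc := hSc t ht
  have hti := hSi t ht
  obtain ⟨z, hz⟩ := QuasiSober.sober hti htc
  rcases isClosed_or_eq_genericPoint c z with h | h
  · rw [← hz.def, h.closure_eq]
    exact Set.finite_singleton z
  · exfalso
    obtain ⟨⟨y, hy⟩⟩ := hU
    have : y ∈ t := by
      rw [← hz.def, h, genericPoint_closure]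
      trivial
    exact (hUS ▸ Set.mem_sUnion_of_mem this ht : y ∈ (U : Set C)ᶜ) hy

/-- The complement of a finite set of closed points. -/
def avoid (S : Finset C) (hS : ∀ x ∈ S, IsClosed {x}) : C.Opens :=
  ⟨(S : Set C)ᶜ, by
    rw [← Set.biUnion_of_singleton (S : Set C)]
    exact (Set.Finite.isClosed_biUnion S.finite_toSet hS).isOpen_compl⟩

theorem mem_avoid {S : Finset C} {hS : ∀ x ∈ S, IsClosed {x}} {x : C} :
    x ∈ avoid S hS ↔ x ∉ S := Iff.rfl

theorem genericPoint_mem_avoid (S : Finset C) (hS : ∀ x ∈ S, IsClosed {x}) :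
    genericPoint C ∈ avoid S hS :=
  fun h => not_isClosed_genericPoint c (hS _ h)

/-- The complement of a nonempty finite set of closed points is affine. -/
theorem isAffineOpen_avoid (S : Finset C) (hS : ∀ x ∈ S, IsClosed {x}) (hne : S.Nonempty) :
    IsAffineOpen (avoid S hS) := by
  letI := fieldAlgebra c
  have := isFunctionField_functionField c
  set U := avoid S hS
  have : Nonempty U := ⟨⟨_, genericPoint_mem_avoid c S hS⟩⟩
  obtain ⟨q₀, hq₀⟩ := hne
  refine isAffineOpen_of_isAffineOpen_basicOpen U {s | IsAffineOpen (C.basicOpen s)} ?_ fun _ h => h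
  by_contra hI
  letI := sectionsAlgebra c U
  let e : Γ(C, U) →ₐ[k] C.functionField :=
    AlgHom.mk (C.germToFunctionField U).hom (germToFunctionField_constHom c U)
  have heinj : Function.Injective e := Scheme.germToFunctionField_injective C U
  let eq := AlgEquiv.ofInjective e heinj
  set I := Ideal.span {s : Γ(C, U) | IsAffineOpen (C.basicOpen s)}
  let I' : Ideal e.range := I.comap eq.symm.toRingEquiv.toRingHom
  have hmemI : ∀ s ∈ I, eq s ∈ I' := fun s hs => by
    simp only [I', Ideal.mem_comap]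
    simpa using hs
  have key : ∀ P : C, IsClosed {P} → P ∈ U → ∃ s : Γ(C, U), s ∈ I ∧ P ∈ C.basicOpen s ∧
      s ≠ 0 := by
    intro P hP hPU
    obtain ⟨_, ⟨W, hW, rfl⟩, hPW, hWU⟩ :=
      C.isBasis_affineOpens.exists_subset_of_mem_open hPU U.2
    have : Nonempty W := ⟨⟨P, hPW⟩⟩
    let Z := (finite_compl c W).toFinset
    let T : Finset (Place k C.functionField) := ((Z.filter fun x => x ∉ S).attach.image fun x =>
      if h : IsClosed {x.1} then pointPlace c x.1 h else pointPlace c q₀ (hS q₀ hq₀)).erase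
        (pointPlace c q₀ (hS q₀ hq₀))
    obtain ⟨f, hf0, hf, hfT, hfP⟩ := exists_ord_eq_and (pointPlace c q₀ (hS q₀ hq₀))
      (pointPlace c P hP) (fun h => hPU (by rw [pointPlace_injective c _ _ _ _ h]; exact hq₀))
      T (Finset.notMem_erase _ _) 0
    obtain ⟨s, rfl⟩ := exists_section c U f fun x hx hxU =>
      (FF.mem_iff _).mpr (Or.inr (hf _ fun h => hxU (by
        rw [pointPlace_injective c _ _ _ _ h]; exact hq₀)))
    refine ⟨s, Ideal.subset_span ?_, ?_, fun h => hf0 (by rw [h, map_zero])⟩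
    · have hle : C.basicOpen s ≤ W := le_of_closedPoints c fun x hx hxs => by
        by_contra hxW
        have hxU : x ∈ U := C.basicOpen_le s hxs
        have h1 := ((mem_basicOpen_iff_ord c U s hx hxU).mp hxs).2
        have hxT : pointPlace c x hx ∈ T := by
          refine Finset.mem_erase.mpr ⟨fun h => hxU (by
            rw [pointPlace_injective c _ _ _ _ h]; exact hq₀), ?_⟩
          refine Finset.mem_image.mpr ⟨⟨x, Finset.mem_filter.mpr
            ⟨(finite_compl c W).mem_toFinset.mpr hxW, hxU⟩⟩, Finset.mem_attach _ _, ?_⟩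
          simp [hx]
        rcases eq_or_ne (pointPlace c x hx) (pointPlace c P hP) with h | h
        · exact hxW (pointPlace_injective c _ _ _ _ h ▸ hPW)
        · have := hfT _ hxT h
          omega
      show IsAffineOpen (C.basicOpen s)
      have := C.basicOpen_res s (homOfLE hWU).op
      rw [inf_eq_right.mpr hle] at this
      exact this ▸ hW.basicOpen _
    · exact (mem_basicOpen_iff_ord c U s hP hPU).mpr ⟨hf0, by rw [hfP]; rfl⟩
  have hI' : I' ≠ ⊤ := fun h => hI (by
    rw [eq_top_iff]
    intro a _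
    have : eq a ∈ I' := h ▸ Submodule.mem_top
    simpa [I'] using this)
  have hI0 : I' ≠ ⊥ := fun h => by
    obtain ⟨P, hPU, hP⟩ := exists_closed_mem c U
    obtain ⟨s, hs, -, hs0⟩ := key P hP hPU
    have := hmemI s hs
    rw [h, Ideal.mem_bot, map_eq_zero_iff _ eq.injective] at this
    exact hs0 this
  obtain ⟨v, hv, hvI⟩ := FF.exists_place_of_ideal e.range I' hI' hI0
  by_cases hvU : placePoint c v ∈ U
  · obtain ⟨s, hs, hsP, hs0⟩ := key _ (isClosed_placePoint c v) hvU
    obtain ⟨h0, h1⟩ := (mem_basicOpen_iff_ord c U s (isClosed_placePoint c v) hvU).mp hsP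
    rw [pointPlace_placePoint] at h1
    have h2 := FF.le_ord_of_mem_ordGe v h0 (hvI (eq s) (hmemI s hs))
    omega
  · obtain ⟨f, hf0, hf, hfv⟩ := exists_pole v
    obtain ⟨s, rfl⟩ := exists_section c U f fun x hx hxU => (FF.mem_iff _).mpr (Or.inr (hf _
      fun h => hvU (by rw [← h, placePoint_pointPlace]; exact hxU)))
    have := FF.ord_nonneg v (hv _ ⟨s, rfl⟩)
    exact absurd this (not_le.mpr hfv)

end Fermat.Agent.Jac
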