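import Mathlib.Topology.Order.LowerUpperTopology
import Fermat.Agent.Jac.Geometry.Affine

/-!
# Rings of sections on affine opens of a smooth proper integral curve
-/

set_option autoImplicit false

noncomputable section

open CategoryTheory AlgebraicGeometry AlgebraicCurve TopologicalSpace Polynomial

namespace Fermat.Agent.Jac

universe u

variable {k : Type u} [Field k] [IsAlgClosed k] {C : Scheme.{u}}
  (c : C ⟶ Spec (CommRingCat.of k)) [IsIntegral C] [SmoothOfRelativeDimension 1 c] [IsProper c]

set_option linter.unusedSectionVars false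
set_option linter.style.haveILetI false
include c

theorem finiteType_sections {U : C.Opens} (hU : IsAffineOpen U) :
    letI := sectionsAlgebra c U
    Algebra.FiniteType k Γ(C, U) := by
  letI := sectionsAlgebra c U
  have := locallyOfFiniteType c
  have h := HasRingHomProperty.appLE @LocallyOfFiniteType c ‹_› ⟨⊤, isAffineOpen_top _⟩ ⟨U, hU⟩
    le_top
  exact RingHom.finiteType_respectsIso.2 _
    (Scheme.ΓSpecIso (CommRingCat.of k)).symm.commRingCatIsoToRingEquiv h

theorem isDedekindDomain_sections {U : C.Opens} (hU : IsAffineOpen U) [Nonempty U] :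
    IsDedekindDomain Γ(C, U) := by
  letI := sectionsAlgebra c U
  have := finiteType_sections c hU
  have : IsNoetherianRing Γ(C, U) := Algebra.FiniteType.isNoetherianRing k _
  suffices IsDedekindDomainDvr Γ(C, U) from IsDedekindDomainDvr.isDedekindDomain Γ(C, U)
  refine { is_dvr_at_nonzero_prime := fun P hP hPp => ?_ }
  let y : PrimeSpectrum Γ(C, U) := ⟨P, hPp⟩
  have hy : hU.fromSpec y ∈ U := (hU.range_fromSpec ▸ Set.mem_range_self y :)
  rcases isClosed_or_eq_genericPoint c (hU.fromSpec y) with h | h
  · have := isDiscreteValuationRing_stalk c h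
    letI := TopCat.Presheaf.algebra_section_stalk C.presheaf (⟨hU.fromSpec y, hy⟩ : U)
    have : IsLocalization y.asIdeal.primeCompl (C.presheaf.stalk (hU.fromSpec y)) :=
      hU.isLocalization_stalk' y hy
    exact IsDiscreteValuationRing.RingEquivClass.isDiscreteValuationRing
      (IsLocalization.algEquiv y.asIdeal.primeCompl (C.presheaf.stalk (hU.fromSpec y))
        (Localization.AtPrime P)).toRingEquiv
  · exfalso
    refine hP ?_
    have hη : genericPoint C ∈ U := h ▸ hy
    have h1 : y = hU.primeIdealOf ⟨genericPoint C, hη⟩ := by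
      apply hU.fromSpec.isOpenEmbedding.injective
      rw [h]
      exact (hU.fromSpec_primeIdealOf ⟨genericPoint C, hη⟩).symm
    rw [hU.primeIdealOf_genericPoint, genericPoint_eq_bot_of_affine] at h1
    exact congrArg PrimeSpectrum.asIdeal h1

/-- Finiteness over `k[x]` from the places where `x` is regular. -/
theorem finite_aeval {U : C.Opens} (hU : IsAffineOpen U) [Nonempty U] (x : Γ(C, U))
    (hx : letI := fieldAlgebra c
      ∀ v : Place k C.functionField,
        C.germToFunctionField U x ∈ v.toValuationSubring → placePoint c v ∈ U) :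
    letI := sectionsAlgebra c U
    (aeval x : k[X] →ₐ[k] Γ(C, U)).toRingHom.Finite := by
  letI := fieldAlgebra c
  letI := sectionsAlgebra c U
  have := isFunctionField_functionField c
  let e : Γ(C, U) →ₐ[k] C.functionField :=
    AlgHom.mk (C.germToFunctionField U).hom (germToFunctionField_constHom c U)
  have heinj : Function.Injective e := Scheme.germToFunctionField_injective C U
  have hint : (aeval x : k[X] →ₐ[k] Γ(C, U)).toRingHom.IsIntegral := fun a => by
    have hR : IsIntegral (Algebra.adjoin k {e x}) (e a) :=
      FF.isIntegral_of_forall_mem _ fun v hv => by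
        have hvU := hx v (hv _ (Algebra.subset_adjoin rfl))
        have := germToFunctionField_mem c U a (isClosed_placePoint c v) hvU
        rwa [pointPlace_placePoint] at this
    obtain ⟨p, hp, hpa⟩ := hR
    let g : k[X] →+* Algebra.adjoin k {e x} := ((aeval (e x) : k[X] →ₐ[k] C.functionField).codRestrict
      (Algebra.adjoin k {e x}) fun q => aeval_mem_adjoin_singleton k (e x)).toRingHom
    have hgs : Function.Surjective g := fun ⟨z, hz⟩ => by
      rw [Algebra.adjoin_singleton_eq_range_aeval] at hz
      obtain ⟨q, rfl⟩ := hz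
      exact ⟨q, rfl⟩
    obtain ⟨q, hq, -, hqm⟩ := lifts_and_degree_eq_and_monic
      ((lifts_iff_coeff_lifts p).mpr fun n => hgs _) hp
    refine ⟨q, hqm, heinj ?_⟩
    rw [map_zero, ← hpa, ← hq, eval₂_map,
      show e (q.eval₂ (aeval x : k[X] →ₐ[k] Γ(C, U)).toRingHom a) =
        (e : Γ(C, U) →+* C.functionField) (q.eval₂ (aeval x : k[X] →ₐ[k] Γ(C, U)).toRingHom a)
        from rfl, hom_eval₂]
    congr 1
    refine RingHom.ext fun r => ?_
    exact (aeval_algHom_apply e x r).symm
  have hft : (aeval x : k[X] →ₐ[k] Γ(C, U)).toRingHom.FiniteType := by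
    let _ := (aeval x : k[X] →ₐ[k] Γ(C, U)).toRingHom.toAlgebra
    have : IsScalarTower k k[X] Γ(C, U) := IsScalarTower.of_algebraMap_eq fun r =>
      ((aeval x : k[X] →ₐ[k] Γ(C, U)).commutes r).symm
    have := finiteType_sections c hU
    exact Algebra.FiniteType.of_restrictScalars_finiteType k k[X] Γ(C, U)
  exact RingHom.IsIntegral.to_finite hint hft

end Fermat.Agent.Jac
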