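import Fermat.Agent.Jac.Geometry.Functions
import Mathlib.RingTheory.Ideal.Quotient.Operations

/-!
# Jets at a place
-/

set_option autoImplicit false

noncomputable section

open scoped Classical

open AlgebraicCurve

namespace Fermat.Agent.Jac

variable {K F R : Type*} [Field K] [Field F] [Algebra K F] [FF.IsFunctionField K F] [IsAlgClosed K]
  [CommRing R] [Algebra K R]

/-- `1, t, ..., t^(d-1)` is a basis modulo functions vanishing to order `d`. -/
theorem bijective_jets (v : Place K F) (e : R →ₐ[K] F) (t : R) (ht : v.ord (e t) = 1)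
    (ht0 : e t ≠ 0) (hR : ∀ a, e a ∈ FF.ordGe v 0) (J : Ideal R) (d : ℕ)
    (hJ : ∀ a, a ∈ J ↔ e a ∈ FF.ordGe v (d : ℤ)) :
    Function.Bijective fun c : Fin d → K =>
      Ideal.Quotient.mk J (∑ i, algebraMap K R (c i) * t ^ (i : ℕ)) := by
  have hord : ∀ (a : K) (j : ℕ), a ≠ 0 → algebraMap K F a * e t ^ j ≠ 0 ∧
      v.ord (algebraMap K F a * e t ^ j) = j := fun a j ha => by
    refine ⟨mul_ne_zero (by simpa using ha) (pow_ne_zero j ht0), ?_⟩
    rw [v.ord_mul (by simpa using ha) (pow_ne_zero j ht0), FF.ord_algebraMap, FF.ord_pow, ht]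
    ring
  constructor
  · intro c c' h
    rw [Ideal.Quotient.eq, hJ, ← Finset.sum_sub_distrib] at h
    by_contra hne
    obtain ⟨i, hi, hmin⟩ := Finset.exists_min_image
      (Finset.univ.filter fun i => c i ≠ c' i) id
      (by
        obtain ⟨i, hi⟩ := Function.ne_iff.mp hne
        exact ⟨i, by simpa using hi⟩)
    simp only [Finset.mem_filter, Finset.mem_univ, true_and, id_eq] at hi hmin
    rw [map_sum, ← Finset.add_sum_erase _ _ (Finset.mem_univ i)] at h
    have hrest : (∑ j ∈ Finset.univ.erase i,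
        e (algebraMap K R (c j) * t ^ (j : ℕ) - algebraMap K R (c' j) * t ^ (j : ℕ))) ∈
          FF.ordGe v ((i : ℕ) + 1 : ℤ) := by
      refine sum_mem fun j hj => ?_
      rw [← sub_mul, ← map_sub, map_mul, map_pow, AlgHom.commutes]
      by_cases hcj : c j = c' j
      · simp [hcj]
      · refine FF.mem_ordGe_of_le v ?_
        rw [(hord _ j (sub_ne_zero.mpr hcj)).2]
        have h1 := hmin j hcj
        have h2 : (j : ℕ) ≠ (i : ℕ) := fun hh => (Finset.mem_erase.mp hj).1 (Fin.ext hh)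
        have h3 : (i : ℕ) ≤ (j : ℕ) := h1
        omega
    have hd : ((i : ℕ) + 1 : ℤ) ≤ (d : ℤ) := by have := i.2; omega
    have h1 := sub_mem (FF.ordGe_anti v hd h) hrest
    rw [add_sub_cancel_right, ← sub_mul, ← map_sub, map_mul, map_pow, AlgHom.commutes] at h1
    obtain ⟨hne0, ho⟩ := hord _ i (sub_ne_zero.mpr hi)
    have := FF.le_ord_of_mem_ordGe v hne0 h1
    omega
  · intro z
    obtain ⟨a, rfl⟩ := Ideal.Quotient.mk_surjective z
    suffices ∀ j ≤ d, ∃ c : Fin d → K,
        e (a - ∑ i, algebraMap K R (c i) * t ^ (i : ℕ)) ∈ FF.ordGe v (j : ℤ) by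
      obtain ⟨c, hc⟩ := this d le_rfl
      refine ⟨c, (Ideal.Quotient.eq.mpr ?_).symm⟩
      exact (hJ _).mpr hc
    intro j
    induction j with
    | zero => exact fun _ => ⟨0, by simpa using hR a⟩
    | succ j ih =>
      intro hj
      obtain ⟨c, hc⟩ := ih (by omega)
      set r := e (a - ∑ i, algebraMap K R (c i) * t ^ (i : ℕ))
      have hg : r * ((e t) ^ j)⁻¹ ∈ FF.ordGe v 0 := by
        have h1 : ((e t) ^ j)⁻¹ ∈ FF.ordGe v (-(j : ℤ)) := FF.mem_ordGe_of_le v (by
          rw [v.ord_inv, FF.ord_pow, ht]; simp)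
        simpa using FF.mul_mem_ordGe v hc h1
      obtain ⟨b, hb⟩ := exists_sub_algebraMap_mem v hg
      refine ⟨c + Pi.single (⟨j, by omega⟩ : Fin d) b, ?_⟩
      have h2 : e t ^ j ∈ FF.ordGe v (j : ℤ) := FF.mem_ordGe_of_le v (by
        rw [FF.ord_pow, ht]; simp)
      have h3 := FF.mul_mem_ordGe v hb h2
      rw [show (1 : ℤ) + (j : ℕ) = ((j + 1 : ℕ) : ℤ) by push_cast; ring, sub_mul,
        inv_mul_cancel_right₀ (pow_ne_zero j ht0)] at h3
      convert h3 using 1
      have hs : ∑ i : Fin d, algebraMap K R ((c + Pi.single (M := fun _ => K) (⟨j, by omega⟩ : Fin d) b) i) * t ^ (i : ℕ) =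
          (∑ i : Fin d, algebraMap K R (c i) * t ^ (i : ℕ)) + algebraMap K R b * t ^ j := by
        simp only [Pi.add_apply, map_add, add_mul, Finset.sum_add_distrib]
        congr 1
        rw [Finset.sum_eq_single (⟨j, by omega⟩ : Fin d)]
        · simp
        · intro i _ hi; simp [hi]
        · simp
      rw [hs, ← sub_sub, map_sub, map_mul, map_pow, AlgHom.commutes]

end Fermat.Agent.Jac
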