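import Fermat.Agent.Jac.CurveModel
import Fermat.Agent.Jac.Geometry.Chart
import Fermat.Agent.Jac.Geometry.Jets

/-!
# A smooth proper integral curve with a section has a two-chart presentation
-/

set_option autoImplicit false

noncomputable section

open scoped Classical

open CategoryTheory AlgebraicGeometry AlgebraicCurve TopologicalSpace Polynomial NeronModelInfra

namespace Fermat.Agent.Jac

universe u

variable {k : Type u} [Field k] {C : Scheme.{u}} (c : C ⟶ Spec (CommRingCat.of k))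

set_option linter.unusedSectionVars false
set_option linter.style.haveILetI false

theorem fromSpec_comp_eq {U : C.Opens} (hU : IsAffineOpen U) :
    hU.fromSpec ≫ c = Spec.map (CommRingCat.ofHom (constHom c U)) := by
  rw [← IsAffineOpen.SpecMap_appLE_fromSpec c (isAffineOpen_top _) hU le_top,
    IsAffineOpen.fromSpec_top, Scheme.isoSpec_Spec_inv, ← Spec.map_comp]
  rfl

variable [IsAlgClosed k] [IsIntegral C] [SmoothOfRelativeDimension 1 c] [IsProper c]

theorem exists_curveModel (ε : SchemeHomOver (𝟙 (Spec (CommRingCat.of k))) c) :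
    Nonempty (CurveModel c ε) := by
  letI := fieldAlgebra c
  have := isFunctionField_functionField c
  have := locallyOfFiniteType c
  -- the marked point
  let P₀ : C := ε.1 (IsLocalRing.closedPoint k)
  have hP₀ : IsClosed {P₀} := ((pointEquivClosedPoint c) ⟨ε.1, ε.2⟩).2
  let v₀ : Place k C.functionField := pointPlace c P₀ hP₀
  -- the coordinate
  obtain ⟨xF, hx0, hxpos, hxneg⟩ := exists_pole v₀
  have hxt : Transcendental k xF := fun h => by
    have := FF.ord_eq_zero_of_isAlgebraic h v₀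
    omega
  have hxit : Transcendental k xF⁻¹ := fun h => hxt (IsAlgebraic.inv_iff.mp h)
  obtain ⟨v₁, hv₁⟩ : ∃ v : Place k C.functionField, 0 < v.ord xF := by
    obtain ⟨v, hv⟩ := FF.exists_ord_neg_of_transcendental hxit
    exact ⟨v, by rw [v.ord_inv] at hv; omega⟩
  have hv₁₀ : v₀ ≠ v₁ := fun h => by rw [← h] at hv₁; omega
  let Zs : Finset (Place k C.functionField) := (FF.div k xF).support.filter fun v => 0 < v.ord xF
  have hZs : ∀ v, v ∈ Zs ↔ 0 < v.ord xF := fun v => by
    simp only [Zs, Finset.mem_filter, Finsupp.mem_support_iff, FF.div_apply]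
    constructor
    · exact fun h => h.2
    · exact fun h => ⟨by omega, h⟩
  let U₀ : C.Opens := avoid {P₀} (by simpa using hP₀)
  let U₁ : C.Opens := avoid (Zs.image (placePoint c)) (by
    intro z hz
    obtain ⟨v, -, rfl⟩ := Finset.mem_image.mp hz
    exact isClosed_placePoint c v)
  have hmem₀ : ∀ Q : C, Q ∈ U₀ ↔ Q ≠ P₀ := fun Q => by
    show Q ∉ ({P₀} : Finset C) ↔ _
    simp
  have hmem₁ : ∀ (Q : C) (hQ : IsClosed {Q}), Q ∈ U₁ ↔ (pointPlace c Q hQ).ord xF ≤ 0 := by
    intro Q hQ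
    show Q ∉ Zs.image (placePoint c) ↔ _
    rw [Finset.mem_image, not_exists]
    constructor
    · intro h
      by_contra h'
      exact h (pointPlace c Q hQ) ⟨(hZs _).mpr (by omega), placePoint_pointPlace c Q hQ⟩
    · rintro h v ⟨hv, rfl⟩
      rw [pointPlace_placePoint] at h
      have := (hZs v).mp hv
      omega
  have hne₀ : ∀ (Q : C) (hQ : IsClosed {Q}), Q ∈ U₀ → pointPlace c Q hQ ≠ v₀ := fun Q hQ h h' =>
    (hmem₀ Q).mp h (pointPlace_injective c _ _ _ _ h')
  have hP₀₁ : P₀ ∈ U₁ := (hmem₁ P₀ hP₀).mpr hxneg.le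
  have hA₀ : IsAffineOpen U₀ := isAffineOpen_avoid c _ _ (Finset.singleton_nonempty _)
  have hA₁ : IsAffineOpen U₁ :=
    isAffineOpen_avoid c _ _ ⟨_, Finset.mem_image_of_mem _ ((hZs v₁).mpr hv₁)⟩
  have hn₀ : Nonempty U₀ := ⟨⟨_, genericPoint_mem_avoid c _ _⟩⟩
  have hn₁ : Nonempty U₁ := ⟨⟨P₀, hP₀₁⟩⟩
  have hn : Nonempty (U₀ ⊓ U₁ : C.Opens) :=
    ⟨⟨genericPoint C, genericPoint_mem_avoid c _ _, genericPoint_mem_avoid c _ _⟩⟩
  -- the coordinate functions
  obtain ⟨x, hx⟩ := exists_section c U₀ xF fun Q hQ hQU =>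
    (FF.mem_iff _).mpr (Or.inr (hxpos _ (hne₀ Q hQ hQU)))
  obtain ⟨y, hy⟩ := exists_section c U₁ xF⁻¹ fun Q hQ hQU =>
    (FF.mem_iff _).mpr (Or.inr (by
      have := (hmem₁ Q hQ).mp hQU
      rw [Place.ord_inv]
      omega))
  have hbx : C.basicOpen x = U₀ ⊓ U₁ := by
    refine le_antisymm (le_of_closedPoints c fun Q hQ h => ?_) (le_of_closedPoints c fun Q hQ h => ?_)
    · have hQU : Q ∈ U₀ := C.basicOpen_le x h
      have := ((mem_basicOpen_iff_ord c U₀ x hQ hQU).mp h).2
      rw [hx] at this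
      exact ⟨hQU, (hmem₁ Q hQ).mpr this.le⟩
    · refine (mem_basicOpen_iff_ord c U₀ x hQ h.1).mpr ?_
      rw [hx]
      exact ⟨hx0, le_antisymm ((hmem₁ Q hQ).mp h.2) (hxpos _ (hne₀ Q hQ h.1))⟩
  have hby : C.basicOpen y = U₀ ⊓ U₁ := by
    refine le_antisymm (le_of_closedPoints c fun Q hQ h => ?_) (le_of_closedPoints c fun Q hQ h => ?_)
    · have hQU : Q ∈ U₁ := C.basicOpen_le y h
      have := ((mem_basicOpen_iff_ord c U₁ y hQ hQU).mp h).2
      rw [hy, Place.ord_inv] at this
      refine ⟨(hmem₀ Q).mpr ?_, hQU⟩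
      rintro rfl
      change -v₀.ord xF = 0 at this
      omega
    · refine (mem_basicOpen_iff_ord c U₁ y hQ h.2).mpr ?_
      rw [hy, Place.ord_inv]
      refine ⟨inv_ne_zero hx0, ?_⟩
      have h1 := (hmem₁ Q hQ).mp h.2
      have h2 := hxpos _ (hne₀ Q hQ h.1)
      omega
  letI a₀ := sectionsAlgebra c U₀
  letI a₁ := sectionsAlgebra c U₁
  letI a₂ := sectionsAlgebra c (U₀ ⊓ U₁)
  let e₀ : Γ(C, U₀) →ₐ[k] C.functionField :=
    AlgHom.mk (C.germToFunctionField U₀).hom (germToFunctionField_constHom c U₀)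
  let e₁ : Γ(C, U₁) →ₐ[k] C.functionField :=
    AlgHom.mk (C.germToFunctionField U₁).hom (germToFunctionField_constHom c U₁)
  let i₀ : Γ(C, U₀) →ₐ[k] Γ(C, U₀ ⊓ U₁) :=
    AlgHom.mk (C.presheaf.map (homOfLE inf_le_left).op).hom (map_constHom c inf_le_left)
  let i₁ : Γ(C, U₁) →ₐ[k] Γ(C, U₀ ⊓ U₁) :=
    AlgHom.mk (C.presheaf.map (homOfLE inf_le_right).op).hom (map_constHom c inf_le_right)
  have hi₀ : ∀ a, C.germToFunctionField (U₀ ⊓ U₁) (i₀ a) = e₀ a :=
    fun a => C.presheaf.germ_res_apply _ _ _ _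
  have hi₁ : ∀ a, C.germToFunctionField (U₀ ⊓ U₁) (i₁ a) = e₁ a :=
    fun a => C.presheaf.germ_res_apply _ _ _ _
  have hxy : i₀ x * i₁ y = 1 := by
    refine C.germToFunctionField_injective (U₀ ⊓ U₁) ?_
    rw [map_mul, map_one, hi₀, hi₁, show e₀ x = xF from hx, show e₁ y = xF⁻¹ from hy,
      mul_inv_cancel₀ hx0]
  have hR₁ : ∀ a, e₁ a ∈ FF.ordGe v₀ 0 := fun a =>
    (FF.mem_ordGe_zero v₀).mpr (germToFunctionField_mem c U₁ a hP₀ hP₀₁)
  -- evaluation at the marked point
  have hr : Set.range ε.1 ⊆ Set.range hA₁.fromSpec := by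
    rw [hA₁.range_fromSpec]
    rintro _ ⟨z, rfl⟩
    rw [Subsingleton.elim z (IsLocalRing.closedPoint k)]
    exact hP₀₁
  let l := IsOpenImmersion.lift hA₁.fromSpec ε.1 hr
  have hl : l ≫ hA₁.fromSpec = ε.1 := IsOpenImmersion.lift_fac _ _ _
  let φ := Spec.preimage l
  have hφ : CommRingCat.ofHom (constHom c U₁) ≫ φ = 𝟙 _ := by
    rw [← Spec.map_injective.eq_iff, Spec.map_comp, Spec.map_preimage, ← fromSpec_comp_eq c hA₁,
      ← Category.assoc, hl, ε.2, Spec.map_id]
  let ev : Γ(C, U₁) →ₐ[k] k := AlgHom.mk φ.hom (fun r => congr($hφ r))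
  have hev : ∀ a, P₀ ∈ C.basicOpen a ↔ ev a ≠ 0 := fun a => by
    have hpt : hA₁.fromSpec (l (IsLocalRing.closedPoint k)) = P₀ := congr(($hl) (IsLocalRing.closedPoint k))
    rw [← hpt]
    change l (IsLocalRing.closedPoint k) ∈ hA₁.fromSpec ⁻¹ᵁ C.basicOpen a ↔ _
    rw [hA₁.fromSpec_preimage_basicOpen, show l = Spec.map φ from (Spec.map_preimage l).symm]
    change ¬ φ a ∈ IsLocalRing.maximalIdeal k ↔ _
    rw [IsLocalRing.mem_maximalIdeal, mem_nonunits_iff, not_not, isUnit_iff_ne_zero]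
    rfl
  -- the uniformiser
  obtain ⟨tF, ht0, htpos, -, htord⟩ :=
    exists_ord_eq_and v₁ v₀ hv₁₀ ∅ (Finset.notMem_empty _) 1
  obtain ⟨t, ht⟩ := exists_section c U₁ tF fun Q hQ hQU => (FF.mem_iff _).mpr (Or.inr (htpos _
    fun h => by
      have := (hmem₁ Q hQ).mp hQU
      rw [h] at this
      omega))
  have hev_t : ev t = 0 := by
    by_contra h
    have := ((mem_basicOpen_iff_ord c U₁ t hP₀ hP₀₁).mp ((hev t).mpr h)).2
    rw [ht] at this
    change v₀.ord tF = 0 at this
    omega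
  have hev_y : ev y = 0 := by
    by_contra h
    have := ((mem_basicOpen_iff_ord c U₁ y hP₀ hP₀₁).mp ((hev y).mpr h)).2
    rw [hy] at this
    change v₀.ord xF⁻¹ = 0 at this
    rw [v₀.ord_inv] at this
    omega
  obtain ⟨d, hd⟩ := Int.eq_ofNat_of_zero_le (show 0 ≤ -v₀.ord xF by omega)
  have hJ : ∀ a, a ∈ Ideal.span {y} ↔ e₁ a ∈ FF.ordGe v₀ (d : ℤ) := fun a => by
    rw [Ideal.mem_span_singleton']
    constructor
    · rintro ⟨b, rfl⟩
      rw [map_mul]
      have hy' : e₁ y ∈ FF.ordGe v₀ (d : ℤ) := FF.mem_ordGe_of_le v₀ (by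
        rw [show e₁ y = xF⁻¹ from hy, v₀.ord_inv]; omega)
      simpa using FF.mul_mem_ordGe v₀ (hR₁ b) hy'
    · intro ha
      obtain ⟨b, hb⟩ := exists_section c U₁ (e₁ a * xF) fun Q hQ hQU => by
        rw [← FF.mem_ordGe_zero]
        rcases eq_or_ne (pointPlace c Q hQ) v₀ with h | h
        · rw [h]
          have := FF.mul_mem_ordGe v₀ ha (FF.mem_ordGe_of_le v₀ (n := -(d : ℤ)) (f := xF) (by omega))
          simpa using this
        · have := FF.mul_mem_ordGe (pointPlace c Q hQ)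
            ((FF.mem_ordGe_zero _).mpr (germToFunctionField_mem c U₁ a hQ hQU))
            (FF.mem_ordGe_of_le _ (hxpos _ h))
          simpa [e₁] using this
      refine ⟨b, C.germToFunctionField_injective U₁ ?_⟩
      rw [map_mul, hb, hy, mul_inv_cancel_right₀ hx0]
      rfl
  let D : CurveData.{u} k :=
    { A := Γ(C, U₀)
      A₁ := Γ(C, U₁)
      B := Γ(C, U₀ ⊓ U₁)
      dedA := isDedekindDomain_sections c hA₀
      dedA₁ := isDedekindDomain_sections c hA₁
      ftA := finiteType_sections c hA₀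
      ftA₁ := finiteType_sections c hA₁
      i₀ := i₀
      i₁ := i₁
      x := x
      y := y
      d := d
      d_pos := by omega
      xy := hxy
      awayX := hA₀.isLocalization_of_eq_basicOpen x (homOfLE inf_le_left) hbx.symm
      awayY := hA₁.isLocalization_of_eq_basicOpen y (homOfLE inf_le_right) hby.symm
      finite_x := finite_aeval c hA₀ x fun v hv => by
        rw [hx] at hv
        refine (hmem₀ _).mpr fun h => ?_
        have hvv : v = v₀ := by
          rw [← pointPlace_placePoint c v]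
          simp only [h, v₀]
        rw [hvv] at hv
        have := FF.ord_nonneg v₀ hv
        omega
      finite_y := finite_aeval c hA₁ y fun v hv => by
        rw [hy] at hv
        refine (hmem₁ _ (isClosed_placePoint c v)).mpr ?_
        rw [pointPlace_placePoint]
        have := FF.ord_nonneg v hv
        rw [Place.ord_inv] at this
        omega
      injective_x := fun p q h => transcendental_iff_injective.mp hxt (by
        have := congrArg e₀ h
        rwa [← aeval_algHom_apply, ← aeval_algHom_apply, show e₀ x = xF from hx] at this)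
      injective_y := fun p q h => transcendental_iff_injective.mp hxit (by
        have := congrArg e₁ h
        rwa [← aeval_algHom_apply, ← aeval_algHom_apply, show e₁ y = xF⁻¹ from hy] at this)
      ev := ev
      ev_y := hev_y
      t := t
      ev_t := hev_t
      t_pow_d := (hJ _).mpr <| by
        rw [map_pow, show e₁ t = tF from ht]
        simpa using FF.pow_mem_ordGe v₀
          (FF.mem_ordGe_of_le v₀ (n := 1) (f := tF) (by omega)) d
      basis_jets := bijective_jets v₀ e₁ t (by rw [show e₁ t = tF from ht, htord]; rfl)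
        (by rw [show e₁ t = tF from ht]; exact ht0) hR₁ _ d hJ
      global_const := fun a b hab => by
        have heq : e₀ a = e₁ b := by rw [← hi₀, ← hi₁, hab]
        obtain ⟨r, hr⟩ := FF.eq_algebraMap_of_ord_nonneg (K := k) (f := e₀ a) fun v => by
          rw [← pointPlace_placePoint c v]
          by_cases h : placePoint c v ∈ U₀
          · exact ord_germToFunctionField_nonneg c U₀ a (isClosed_placePoint c v) h
          · rw [heq]
            refine ord_germToFunctionField_nonneg c U₁ b (isClosed_placePoint c v) ?_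
            rw [show placePoint c v = P₀ from not_not.mp fun hh => h ((hmem₀ _).mpr hh)]
            exact hP₀₁
        exact ⟨r, C.germToFunctionField_injective U₀ (hr.trans (e₀.commutes r).symm)⟩ }
  refine ⟨{
    D := D
    j₀ := hA₀.fromSpec
    j₁ := hA₁.fromSpec
    open₀ := hA₀.isOpenImmersion_fromSpec
    open₁ := hA₁.isOpenImmersion_fromSpec
    j₀_over := fromSpec_comp_eq c hA₀
    j₁_over := fromSpec_comp_eq c hA₁
    covers := ?_
    inter := ?_
    ε_eq := ?_ }⟩
  · rw [hA₀.range_fromSpec, hA₁.range_fromSpec, ← Opens.coe_sup]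
    have : (⊤ : C.Opens) ≤ U₀ ⊔ U₁ := le_of_closedPoints c fun Q _ _ => by
      by_cases h : Q = P₀
      · exact Or.inr (h ▸ hP₀₁)
      · exact Or.inl ((hmem₀ Q).mpr h)
    exact Set.eq_univ_of_univ_subset this
  · have hA : IsAffineOpen (U₀ ⊓ U₁) := hbx ▸ hA₀.basicOpen x
    let iU := Spec.map (C.presheaf.map (homOfLE (inf_le_left : U₀ ⊓ U₁ ≤ U₀)).op)
    let iV := Spec.map (C.presheaf.map (homOfLE (inf_le_right : U₀ ⊓ U₁ ≤ U₁)).op)
    have hU : iU ≫ hA₀.fromSpec = hA.fromSpec := hA₀.map_fromSpec hA _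
    have hV : iV ≫ hA₁.fromSpec = hA.fromSpec := hA₁.map_fromSpec hA _
    have : IsOpenImmersion (iU ≫ hA₀.fromSpec) := hU ▸ hA.isOpenImmersion_fromSpec
    have : IsOpenImmersion iU := IsOpenImmersion.of_comp iU hA₀.fromSpec
    refine (IsOpenImmersion.isPullback iV iU hA₁.fromSpec hA₀.fromSpec (hU.trans hV.symm) ?_).flip
    ext p
    constructor
    · intro hp
      have h1 : hA₀.fromSpec p ∈ Set.range hA.fromSpec := by
        rw [hA.range_fromSpec]
        exact ⟨hA₀.range_fromSpec ▸ Set.mem_range_self p, hA₁.opensRange_fromSpec ▸ hp⟩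
      rw [← hU] at h1
      obtain ⟨z, hz⟩ := h1
      exact ⟨z, hA₀.fromSpec.isOpenEmbedding.injective hz⟩
    · rintro ⟨z, rfl⟩
      show hA₀.fromSpec (iU z) ∈ hA₁.fromSpec.opensRange
      rw [← Scheme.Hom.comp_apply, hU, ← hV]
      exact ⟨_, rfl⟩
  · show ε.1 = Spec.map φ ≫ hA₁.fromSpec
    rw [Spec.map_preimage, hl]

end Fermat.Agent.Jac
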