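import Mathlib.RingTheory.Jacobson.Ring
import Mathlib.RingTheory.TensorProduct.Free
import Mathlib.AlgebraicGeometry.Geometrically.Integral
import Fermat.Agent.Jac.Geometry.Model

/-!
# Products of curves over an algebraically closed field are integral
-/

set_option autoImplicit false

noncomputable section

open CategoryTheory CategoryTheory.Limits AlgebraicGeometry TensorProduct

namespace Fermat.Agent.Jac

universe u

/-- Over an algebraically closed field the tensor product of two domains, one of them of finite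
type, is a domain. -/
theorem isDomain_tensor (k A R : Type u) [Field k] [IsAlgClosed k] [CommRing A] [IsDomain A]
    [Algebra k A] [Algebra.FiniteType k A] [CommRing R] [IsDomain R] [Algebra k R] :
    IsDomain (A ⊗[k] R) := by
  classical
  have : IsJacobsonRing A := isJacobsonRing_of_finiteType (A := k)
  let b := Module.Free.chooseBasis k R
  let B := Algebra.TensorProduct.basis A b
  have hzero : ∀ a : A, (∀ m : Ideal A, m.IsMaximal → a ∈ m) → a = 0 := fun a ha => by
    have h := (isJacobsonRing_iff_prime_eq.mp ‹IsJacobsonRing A›) ⊥ Ideal.isPrime_bot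
    rw [← Ideal.mem_bot, ← h, Ideal.jacobson, Ideal.mem_sInf]
    exact fun m hm => ha m hm.2
  have : Nontrivial (A ⊗[k] R) := by
    obtain ⟨m, hm⟩ := Ideal.exists_maximal A
    let e := RingEquiv.ofBijective (algebraMap k (A ⧸ m)) (quotient_bijective m)
    let ε : A →ₐ[k] k :=
      { (e.symm : (A ⧸ m) →+* k).comp (Ideal.Quotient.mk m) with
        commutes' := fun r => e.symm_apply_apply r }
    exact (Algebra.TensorProduct.lift ((Algebra.ofId k R).comp ε) (AlgHom.id k R)
      fun _ _ => Commute.all _ _).toRingHom.domain_nontrivial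
  have : NoZeroDivisors (A ⊗[k] R) := ⟨fun {z w} hzw => by
    by_contra! h
    obtain ⟨hz, hw⟩ := h
    obtain ⟨i, hi⟩ : ∃ i, B.repr z i ≠ 0 := by
      by_contra! h
      exact hz (B.repr.injective (by ext i; simp [h i]))
    obtain ⟨j, hj⟩ : ∃ j, B.repr w j ≠ 0 := by
      by_contra! h
      exact hw (B.repr.injective (by ext j; simp [h j]))
    refine mul_ne_zero hi hj (hzero _ fun m hm => ?_)
    let e := RingEquiv.ofBijective (algebraMap k (A ⧸ m)) (quotient_bijective m)
    let ε : A →ₐ[k] k :=
      { (e.symm : (A ⧸ m) →+* k).comp (Ideal.Quotient.mk m) with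
        commutes' := fun r => e.symm_apply_apply r }
    have hε : ∀ a, ε a = 0 → a ∈ m := fun a ha => by
      rw [← Ideal.Quotient.eq_zero_iff_mem]
      exact e.symm.injective (ha.trans (map_zero e.symm).symm)
    let f : A ⊗[k] R →ₐ[k] R :=
      Algebra.TensorProduct.lift ((Algebra.ofId k R).comp ε) (AlgHom.id k R)
        fun _ _ => Commute.all _ _
    have hf : ∀ y n, b.repr (f y) n = ε (B.repr y n) := fun y n => by
      induction y using TensorProduct.induction_on with
      | zero => simp
      | tmul a r =>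
        simp only [f, B, Algebra.TensorProduct.lift_tmul, Algebra.TensorProduct.basis_repr_tmul,
          AlgHom.comp_apply, AlgHom.coe_id, id_eq]
        simp [← Algebra.smul_def, Algebra.ofId_apply]
      | add y y' hy hy' => simp [map_add, hy, hy']
    rcases mul_eq_zero.mp (show f z * f w = 0 by rw [← map_mul, hzw, map_zero]) with h | h
    · exact m.mul_mem_right _ (hε _ (by rw [← hf, h]; simp))
    · exact m.mul_mem_left _ (hε _ (by rw [← hf, h]; simp))⟩
  exact NoZeroDivisors.to_isDomain _

theorem isIntegral_of_two_charts {X Y₁ Y₂ : Scheme.{u}} (f₁ : Y₁ ⟶ X) (f₂ : Y₂ ⟶ X)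
    [IsOpenImmersion f₁] [IsOpenImmersion f₂] [IsIntegral Y₁] [IsIntegral Y₂]
    (hcover : ∀ x : X, x ∈ Set.range f₁ ∨ x ∈ Set.range f₂)
    (hmeet : (Set.range f₁ ∩ Set.range f₂).Nonempty) : IsIntegral X := by
  have : IsReduced X := by
    have (x : X) : _root_.IsReduced (X.presheaf.stalk x) := by
      rcases hcover x with ⟨y, rfl⟩ | ⟨y, rfl⟩
      · exact isReduced_of_injective _
          (asIso <| f₁.stalkMap y).commRingCatIsoToRingEquiv.injective
      · exact isReduced_of_injective _
          (asIso <| f₂.stalkMap y).commRingCatIsoToRingEquiv.injective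
    exact isReduced_of_isReduced_stalk _
  have hirr : ∀ {Y : Scheme.{u}} (f : Y ⟶ X) [IsIntegral Y], IsPreirreducible (Set.range f) := by
    intro Y f _
    rw [← Set.image_univ]
    exact (PreirreducibleSpace.isPreirreducible_univ (X := Y)).image _ f.continuous.continuousOn
  have h1 := hirr f₁
  have h2 := hirr f₂
  have hmeets : ∀ U : Set X, IsOpen U → U.Nonempty → (Set.range f₁ ∩ U).Nonempty := by
    rintro U hU ⟨x, hx⟩
    rcases hcover x with h | h
    · exact ⟨x, h, hx⟩
    · obtain ⟨y, -, hy1, hyU⟩ := h2 _ U f₁.isOpenEmbedding.isOpen_range hU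
        (by rw [Set.inter_comm]; exact hmeet) ⟨x, h, hx⟩
      exact ⟨y, hy1, hyU⟩
  have : IrreducibleSpace X :=
    { isPreirreducible_univ := fun U V hU hV ⟨u, _, hu⟩ ⟨v, _, hv⟩ => by
        obtain ⟨y, -, hy⟩ := h1 U V hU hV (hmeets U hU ⟨u, hu⟩) (hmeets V hV ⟨v, hv⟩)
        exact ⟨y, Set.mem_univ y, hy⟩
      toNonempty := ⟨hmeet.some⟩ }
  exact isIntegral_of_irreducibleSpace_of_isReduced X

variable {k : Type u} [Field k] [IsAlgClosed k] {C : Scheme.{u}}
  (c : C ⟶ Spec (CommRingCat.of k)) [IsIntegral C] [SmoothOfRelativeDimension 1 c] [IsProper c]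

theorem geometricallyIntegral
    (ε : NeronModelInfra.SchemeHomOver (𝟙 (Spec (CommRingCat.of k))) c) :
    GeometricallyIntegral c := by
  obtain ⟨M⟩ := exists_curveModel c ε
  have := M.open₀
  have := M.open₁
  constructor
  intro K _ y Z fst snd hP
  suffices IsIntegral (pullback c y) from IsIntegral.of_isIso (hP.isoPullback).inv
  obtain ⟨ψ, rfl⟩ : ∃ ψ, Spec.map ψ = y := ⟨Spec.preimage y, Spec.map_preimage y⟩
  let _ : Algebra k K := ψ.hom.toAlgebra
  have hchart : ∀ (A : Type u) [CommRing A] [IsDomain A] [Algebra k A] [Algebra.FiniteType k A]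
      (j : Spec (CommRingCat.of A) ⟶ C) [IsOpenImmersion j]
      (hj : j ≫ c = Spec.map (CommRingCat.ofHom (algebraMap k A))),
      ∃ (Y : Scheme.{u}) (q : Y ⟶ pullback c (Spec.map ψ)) (_ : IsOpenImmersion q)
        (_ : IsIntegral Y), Set.range q = (pullback.fst c (Spec.map ψ)).base ⁻¹' Set.range j := by
    intro A _ _ _ _ j _ hj
    have := isDomain_tensor k A K
    refine ⟨pullback (Spec.map (CommRingCat.ofHom (algebraMap k A)))
      (Spec.map (CommRingCat.ofHom (algebraMap k K))), pullback.map _ _ _ _ j (𝟙 _) (𝟙 _)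
        (by simp [hj]) (by simp; rfl), inferInstance,
      IsIntegral.of_isIso (pullbackSpecIso k A K).inv, ?_⟩
    rw [Scheme.Pullback.range_map]
    simp
  obtain ⟨Y₀, q₀, _, _, hq₀⟩ := hchart M.D.A M.j₀ M.j₀_over
  obtain ⟨Y₁, q₁, _, _, hq₁⟩ := hchart M.D.A₁ M.j₁ M.j₁_over
  refine isIntegral_of_two_charts q₀ q₁ (fun z => ?_) ?_
  · rw [hq₀, hq₁]
    have := M.covers
    rw [Set.eq_univ_iff_forall] at this
    exact this _
  · obtain ⟨z, hz⟩ := (pullback.fst c (Spec.map ψ)).surjective (genericPoint C)
    refine ⟨z, ?_, ?_⟩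
    · rw [hq₀, Set.mem_preimage, hz]
      exact (genericPoint_spec C).mem_open_set_iff M.j₀.isOpenEmbedding.isOpen_range |>.mpr
        (by rw [Set.univ_inter]; exact Set.range_nonempty _)
    · rw [hq₁, Set.mem_preimage, hz]
      exact (genericPoint_spec C).mem_open_set_iff M.j₁.isOpenEmbedding.isOpen_range |>.mpr
        (by rw [Set.univ_inter]; exact Set.range_nonempty _)

end Fermat.Agent.Jac
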